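import Mathlib
import Fermat.Prelude.Def_ModularCurve_LaurentCoeff
import Fermat.Agent.S28.H86.GaussGen

/-!
# A2 / K2c (helper553): the Gauss ring of `K((q))` attached to a valuation subring `A ⊆ K`

`K` a field, `A : ValuationSubring K` (no discreteness assumption), `k` its residue field.

* `gaussA A : Subring (LaurentSeries K)` : quotients `a / b` of `A`-integral series with `b`
  primitive (some coefficient a unit of `A`)  (= helper86's `gaussRing` for `O = A`);
* `redA A : gaussA A →+* LaurentSeries k` : the reduction map;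
* `HasGaussForm A x` : `x = c · a / b` with `c ∈ Kˣ` and `a`, `b` primitive;
* `const_mem_gaussA` : a constant lies in `gaussA A` iff it lies in `A`;
* `HasGaussForm.mem_or_inv_mem`, `HasGaussForm.mem_iff`, unit criteria.
-/

set_option autoImplicit false
set_option linter.unusedSectionVars false

noncomputable section

namespace Fermat.Agent.A2.H553

open ModularCurve HahnSeries Fermat.Agent.S28.H86

variable {K : Type*} [Field K] (A : ValuationSubring K)

/-- The residue map of `A`, on the underlying subring. -/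
def resA : ↥A.toSubring →+* IsLocalRing.ResidueField ↥A := IsLocalRing.residue ↥A

theorem resA_eq_zero_iff (x : ↥A.toSubring) : resA A x = 0 ↔ A.valuation (x : K) < 1 := by
  have h1 : resA A x = 0 ↔ (x : ↥A) ∈ IsLocalRing.maximalIdeal ↥A :=
    IsLocalRing.residue_eq_zero_iff (R := ↥A) x
  exact h1.trans (A.valuation_lt_one_iff x)

theorem resA_ne_zero_iff (x : ↥A.toSubring) : resA A x ≠ 0 ↔ A.valuation (x : K) = 1 := by
  rw [Ne, resA_eq_zero_iff, not_lt]
  constructor
  · intro h; exact le_antisymm (A.valuation_le_one x) h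
  · intro h; exact h.ge

/-- The Gauss ring attached to `A`. -/
def gaussA : Subring (LaurentSeries K) := gaussRing A.toSubring (resA A)

/-- The reduction map `gaussA A → k((q))`. -/
def redA : gaussA A →+* LaurentSeries (IsLocalRing.ResidueField ↥A) :=
  gaussRed A.toSubring (resA A)

variable {A}

theorem mem_gaussA_iff {x : LaurentSeries K} :
    x ∈ gaussA A ↔ ∃ a b : LaurentSeries ↥A.toSubring,
      redL (resA A) b ≠ 0 ∧ x * inclL A.toSubring b = inclL A.toSubring a := Iff.rfl

theorem redL_ne_zero_iff (b : LaurentSeries ↥A.toSubring) :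
    redL (resA A) b ≠ 0 ↔ ∃ n, A.valuation ((b.coeff n : K)) = 1 := by
  constructor
  · intro h
    by_contra hcon
    push Not at hcon
    apply h
    ext n
    rw [redL_coeff, HahnSeries.coeff_zero]
    by_contra h0
    exact hcon n ((resA_ne_zero_iff A _).mp h0)
  · rintro ⟨n, hn⟩ h
    have := congrArg (fun z => z.coeff n) h
    simp only [redL_coeff, HahnSeries.coeff_zero] at this
    exact (resA_ne_zero_iff A _).mpr hn this

theorem redL_eq_zero_iff' (b : LaurentSeries ↥A.toSubring) :
    redL (resA A) b = 0 ↔ ∀ n, A.valuation ((b.coeff n : K)) < 1 := by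
  constructor
  · intro h n
    have := congrArg (fun z => z.coeff n) h
    simp only [redL_coeff, HahnSeries.coeff_zero] at this
    exact (resA_eq_zero_iff A _).mp this
  · intro h
    ext n
    rw [redL_coeff, HahnSeries.coeff_zero]
    exact (resA_eq_zero_iff A _).mpr (h n)

theorem inclL_ne_zero_of_redL_ne_zero {b : LaurentSeries ↥A.toSubring}
    (hb : redL (resA A) b ≠ 0) : inclL A.toSubring b ≠ 0 := by
  intro h0
  apply hb
  rw [inclL_injective A.toSubring (h0.trans (map_zero _).symm), map_zero]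

/-- coefficients of `C c * x`. -/
theorem coeff_C_mul' (c : K) (x : LaurentSeries K) (n : ℤ) :
    (HahnSeries.C c * x).coeff n = c * x.coeff n := by
  rw [HahnSeries.C_mul_eq_smul, HahnSeries.coeff_smul, smul_eq_mul]

/-- A constant lies in the Gauss ring iff it lies in `A`. -/
theorem const_mem_gaussA {c : K} : HahnSeries.C c ∈ gaussA A ↔ c ∈ A := by
  constructor
  · rintro ⟨a, b, hb, hab⟩
    obtain ⟨n, hn⟩ := (redL_ne_zero_iff b).mp hb
    have h1 := congrArg (fun z => z.coeff n) hab
    simp only [coeff_C_mul', inclL_coeff] at h1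
    have hbn : (b.coeff n : K) ≠ 0 := by
      intro h0
      rw [h0, map_zero] at hn
      exact zero_ne_one hn
    have hc : c = (a.coeff n : K) * (b.coeff n : K)⁻¹ := by
      field_simp
      exact h1
    rw [hc, ← A.valuation_le_one_iff, map_mul, map_inv₀, hn, inv_one, mul_one]
    exact A.valuation_le_one (a.coeff n)
  · intro hc
    refine ⟨HahnSeries.C (⟨c, hc⟩ : ↥A.toSubring), 1, by simp, ?_⟩
    rw [map_one, mul_one, inclL_C]

/-- reduction of an integral series -/
theorem redA_inclL (a : LaurentSeries ↥A.toSubring) :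
    redA A ⟨inclL A.toSubring a, inclL_mem_gaussRing (resA A) a⟩ = redL (resA A) a :=
  gaussRed_inclL a

theorem redA_eq (x : gaussA A) (a b : LaurentSeries ↥A.toSubring)
    (hb : redL (resA A) b ≠ 0)
    (h : (x : LaurentSeries K) * inclL A.toSubring b = inclL A.toSubring a) :
    redA A x = redL (resA A) a / redL (resA A) b := gaussRed_eq x a b hb h

/-- elements with nonzero reduction are units -/
theorem inv_mem_gaussA_of_redA_ne_zero (x : gaussA A) (hx : redA A x ≠ 0) :
    (x : LaurentSeries K)⁻¹ ∈ gaussA A :=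
  inv_mem_gaussRing_of_gaussRed_ne_zero x hx

/-- units have nonzero reduction -/
theorem redA_ne_zero_of_inv_mem (x : gaussA A) (hx0 : (x : LaurentSeries K) ≠ 0)
    (hx : (x : LaurentSeries K)⁻¹ ∈ gaussA A) : redA A x ≠ 0 := by
  intro h0
  have h1 : x * ⟨_, hx⟩ = (1 : gaussA A) := Subtype.ext (mul_inv_cancel₀ hx0)
  have h2 := congrArg (redA A) h1
  rw [map_mul, h0, zero_mul, map_one] at h2
  exact zero_ne_one h2

/-- `x = c · (a / b)` with `c` a nonzero constant and `a`, `b` primitive integral series. -/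
def HasGaussForm (A : ValuationSubring K) (x : LaurentSeries K) : Prop :=
  ∃ c : K, c ≠ 0 ∧ ∃ a b : LaurentSeries ↥A.toSubring,
    redL (resA A) a ≠ 0 ∧ redL (resA A) b ≠ 0 ∧
      x * inclL A.toSubring b = HahnSeries.C c * inclL A.toSubring a

theorem C_ne_zero' {c : K} (hc : c ≠ 0) : (HahnSeries.C c : LaurentSeries K) ≠ 0 := by
  intro h
  exact hc (HahnSeries.C_injective (h.trans (map_zero _).symm))

theorem HasGaussForm.ne_zero {x : LaurentSeries K} (h : HasGaussForm A x) : x ≠ 0 := by
  obtain ⟨c, hc, a, b, ha, hb, hab⟩ := h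
  rintro rfl
  rw [zero_mul] at hab
  exact mul_ne_zero (C_ne_zero' hc) (inclL_ne_zero_of_redL_ne_zero ha) hab.symm

/-- pure field algebra: invert a relation `x * b = C * a`. -/
theorem inv_form_aux {L : Type*} [Field L] {x C a b : L} (hx : x ≠ 0) (hC : C ≠ 0)
    (hab : x * b = C * a) : x⁻¹ * a = C⁻¹ * b := by
  rw [inv_mul_eq_iff_eq_mul₀ hx]
  calc a = C⁻¹ * (C * a) := by rw [← mul_assoc, inv_mul_cancel₀ hC, one_mul]
    _ = C⁻¹ * (x * b) := by rw [hab]
    _ = x * (C⁻¹ * b) := by ring

theorem HasGaussForm.inv {x : LaurentSeries K} (h : HasGaussForm A x) : HasGaussForm A x⁻¹ := by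
  have hx := h.ne_zero
  obtain ⟨c, hc, a, b, ha, hb, hab⟩ := h
  refine ⟨c⁻¹, inv_ne_zero hc, b, a, hb, ha, ?_⟩
  have hC := C_ne_zero' (K := K) hc
  have hCinv : (HahnSeries.C c⁻¹ : LaurentSeries K) = (HahnSeries.C c)⁻¹ := by
    apply eq_inv_of_mul_eq_one_left
    rw [← map_mul, inv_mul_cancel₀ hc, map_one]
  rw [hCinv]
  exact inv_form_aux hx hC hab

/-- The form of the constant decides membership. -/
theorem HasGaussForm.mem_of_const_mem {x : LaurentSeries K} {c : K}
    {a b : LaurentSeries ↥A.toSubring} (hb : redL (resA A) b ≠ 0)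
    (hab : x * inclL A.toSubring b = HahnSeries.C c * inclL A.toSubring a) (hc : c ∈ A) :
    x ∈ gaussA A := by
  refine ⟨HahnSeries.C (⟨c, hc⟩ : ↥A.toSubring) * a, b, hb, ?_⟩
  rw [hab, map_mul, inclL_C]

theorem HasGaussForm.mem_or_inv_mem {x : LaurentSeries K} (h : HasGaussForm A x) :
    x ∈ gaussA A ∨ x⁻¹ ∈ gaussA A := by
  have hinv := h.inv
  obtain ⟨c, hc, a, b, ha, hb, hab⟩ := h
  rcases A.mem_or_inv_mem c with h1 | h1
  · exact Or.inl (HasGaussForm.mem_of_const_mem hb hab h1)
  · right
    have hx : x ≠ 0 := by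
      rintro rfl
      rw [zero_mul] at hab
      exact mul_ne_zero (C_ne_zero' hc) (inclL_ne_zero_of_redL_ne_zero ha) hab.symm
    have hC := C_ne_zero' (K := K) hc
    have hCinv : (HahnSeries.C c⁻¹ : LaurentSeries K) = (HahnSeries.C c)⁻¹ := by
      apply eq_inv_of_mul_eq_one_left
      rw [← map_mul, inv_mul_cancel₀ hc, map_one]
    refine HasGaussForm.mem_of_const_mem (c := c⁻¹) (a := b) (b := a) ha ?_ h1
    rw [hCinv]
    exact inv_form_aux hx hC hab

/-- For an element in Gauss form, membership in the Gauss ring is read off from the constant. -/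
theorem HasGaussForm.const_mem_of_mem {x : LaurentSeries K} {c : K}
    {a b : LaurentSeries ↥A.toSubring} (ha : redL (resA A) a ≠ 0)
    (hab : x * inclL A.toSubring b = HahnSeries.C c * inclL A.toSubring a)
    (hx : x ∈ gaussA A) : c ∈ A := by
  obtain ⟨a₁, b₁, hb₁, hab₁⟩ := hx
  rw [← const_mem_gaussA]
  refine ⟨a₁ * b, a * b₁, ?_, ?_⟩
  · rw [map_mul]; exact mul_ne_zero ha hb₁
  · rw [map_mul, map_mul, ← hab₁]
    linear_combination (-(inclL A.toSubring b₁)) * hab

/-- A unit of the Gauss ring in Gauss form: the constant is a unit of `A`. -/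
theorem HasGaussForm.isUnit_const {x : LaurentSeries K} {c : K} (hc : c ≠ 0)
    {a b : LaurentSeries ↥A.toSubring} (ha : redL (resA A) a ≠ 0) (hb : redL (resA A) b ≠ 0)
    (hab : x * inclL A.toSubring b = HahnSeries.C c * inclL A.toSubring a)
    (hx : x ∈ gaussA A) (hx' : x⁻¹ ∈ gaussA A) : A.valuation c = 1 := by
  have h1 : c ∈ A := HasGaussForm.const_mem_of_mem ha hab hx
  have hx0 : x ≠ 0 := by
    rintro rfl
    rw [zero_mul] at hab
    exact mul_ne_zero (C_ne_zero' hc) (inclL_ne_zero_of_redL_ne_zero ha) hab.symm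
  have hC := C_ne_zero' (K := K) hc
  have hCinv : (HahnSeries.C c⁻¹ : LaurentSeries K) = (HahnSeries.C c)⁻¹ := by
    apply eq_inv_of_mul_eq_one_left
    rw [← map_mul, inv_mul_cancel₀ hc, map_one]
  have h2 : c⁻¹ ∈ A := by
    refine HasGaussForm.const_mem_of_mem (x := x⁻¹) (a := b) (b := a) hb ?_ hx'
    rw [hCinv]
    exact inv_form_aux hx0 hC hab
  have e1 : A.valuation c ≤ 1 := (A.valuation_le_one_iff c).mpr h1
  have e2 : A.valuation c⁻¹ ≤ 1 := (A.valuation_le_one_iff _).mpr h2
  rw [map_inv₀] at e2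
  have hv : A.valuation c ≠ 0 := (Valuation.ne_zero_iff _).mpr hc
  have e3 : 1 ≤ A.valuation c := by
    have := (inv_le_one₀ (zero_lt_iff.mpr hv)).mp e2
    exact this
  exact le_antisymm e1 e3

end Fermat.Agent.A2.H553
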