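import Mathlib
import Fermat.Prelude.Def_ModularCurve_LaurentCoeff
import Fermat.Agent.S18.H602.DVR
import Fermat.Agent.A2.H553.GaussA

/-!
# A2 / K2c (helper553): every element of `Q̄ · F₀` is a constant times a Gauss unit

`A ⊆ Q̄` a valuation subring over a prime `ℓ` (value group `ℚ`, NOT discrete).  The Gauss
"valuation" `inf v(coefficients)` is not defined on all of `Q̄((q))`, but it is on series whose
coefficients lie in a finite extension `E/ℚ` (where `A ∩ E` is a DVR, helper602).

* `coeffSubring S` : series with coefficients in the subring `S`;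
* `FinFrac A x` : `x = a / b` with `a`, `b` having coefficients in `A ∩ E`, `E/ℚ` finite;
  closed under the field operations (`FinFrac.add`, `.mul`, `.inv`, …);
* `exists_prim_factor` : a nonzero series with coefficients in `A ∩ E` is a constant times a
  primitive `A`-integral series;
* `FinFrac.hasGaussForm` : `FinFrac A x`, `x ≠ 0`  ⟹  `HasGaussForm A x`;
* `finFrac_of_mem_laurentBaseChange` : all elements of `laurentBaseChange Q̄ F₀` are `FinFrac`
  as soon as the elements of `F₀` are.
-/

set_option autoImplicit false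
set_option linter.unusedSectionVars false

noncomputable section

namespace Fermat.Agent.A2.H553

open ModularCurve HahnSeries IntermediateField Fermat.Agent.S28.H86 Fermat.Agent.S18.H602

local notation "Q̄" => AlgebraicClosure ℚ

/-! ### Series with coefficients in a subring -/

section CoeffSubring

variable {K : Type*} [Field K]

/-- Laurent series with coefficients in the subring `S`. -/
def coeffSubring (S : Subring K) : Subring (LaurentSeries K) where
  carrier := {a | ∀ n, a.coeff n ∈ S}
  zero_mem' := fun n => by simp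
  one_mem' := fun n => by
    rw [HahnSeries.coeff_one]
    split_ifs
    · exact S.one_mem
    · exact S.zero_mem
  add_mem' := fun {a b} ha hb n => by
    rw [HahnSeries.coeff_add]
    exact S.add_mem (ha n) (hb n)
  neg_mem' := fun {a} ha n => by
    rw [HahnSeries.coeff_neg]
    exact S.neg_mem (ha n)
  mul_mem' := fun {a b} ha hb n => by
    rw [HahnSeries.coeff_mul]
    exact S.sum_mem fun ij _ => S.mul_mem (ha _) (hb _)

theorem mem_coeffSubring {S : Subring K} {a : LaurentSeries K} :
    a ∈ coeffSubring S ↔ ∀ n, a.coeff n ∈ S := Iff.rfl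

theorem coeffSubring_mono {S T : Subring K} (h : S ≤ T) : coeffSubring S ≤ coeffSubring T :=
  fun _ ha n => h (ha n)

theorem C_mem_coeffSubring {S : Subring K} {c : K} (hc : c ∈ S) :
    (HahnSeries.C c : LaurentSeries K) ∈ coeffSubring S := fun n => by
  rw [HahnSeries.C_apply, HahnSeries.coeff_single]
  split_ifs
  · exact hc
  · exact S.zero_mem

/-- a series with coefficients in `S` comes from a series over `S`. -/
theorem exists_inclL_eq {S : Subring K} {a : LaurentSeries K} (ha : a ∈ coeffSubring S) :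
    ∃ a' : LaurentSeries ↥S, inclL S a' = a :=
  exists_coeffMap_eq S.subtype Subtype.val_injective a fun n => ⟨⟨a.coeff n, ha n⟩, rfl⟩

theorem inclL_mem_coeffSubring {S : Subring K} (a' : LaurentSeries ↥S) :
    inclL S a' ∈ coeffSubring S := fun n => by
  rw [inclL_coeff]
  exact (a'.coeff n).2

end CoeffSubring

/-! ### The coefficient rings `A ∩ E` -/

section FinFrac

variable (A : ValuationSubring Q̄)

/-- `A ∩ E` as a subring of `Q̄`. -/
def capSubring (E : IntermediateField ℚ Q̄) : Subring Q̄ := A.toSubring ⊓ E.toSubfield.toSubring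

variable {A}

theorem mem_capSubring {E : IntermediateField ℚ Q̄} {x : Q̄} :
    x ∈ capSubring A E ↔ x ∈ A ∧ x ∈ E := Iff.rfl

theorem capSubring_mono {E E' : IntermediateField ℚ Q̄} (h : E ≤ E') :
    capSubring A E ≤ capSubring A E' := fun _ hx => ⟨hx.1, h hx.2⟩

theorem capSubring_le (E : IntermediateField ℚ Q̄) : capSubring A E ≤ A.toSubring :=
  fun _ hx => hx.1

variable (A)

/-- `x` is a quotient of two series with coefficients in `A ∩ E`, `E/ℚ` finite. -/
def FinFrac (x : LaurentSeries Q̄) : Prop :=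
  ∃ E : IntermediateField ℚ Q̄, FiniteDimensional ℚ E ∧
    ∃ a b : LaurentSeries Q̄, a ∈ coeffSubring (capSubring A E) ∧
      b ∈ coeffSubring (capSubring A E) ∧ b ≠ 0 ∧ x * b = a

variable {A}

theorem FinFrac.zero : FinFrac A 0 :=
  ⟨⊥, inferInstance, 0, 1, zero_mem _, one_mem _, one_ne_zero, by simp⟩

theorem FinFrac.one : FinFrac A 1 :=
  ⟨⊥, inferInstance, 1, 1, one_mem _, one_mem _, one_ne_zero, by simp⟩

theorem FinFrac.neg {x : LaurentSeries Q̄} (h : FinFrac A x) : FinFrac A (-x) := by
  obtain ⟨E, hE, a, b, ha, hb, hb0, hab⟩ := h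
  exact ⟨E, hE, -a, b, neg_mem ha, hb, hb0, by rw [← hab]; ring⟩

theorem FinFrac.add {x y : LaurentSeries Q̄} (hx : FinFrac A x) (hy : FinFrac A y) :
    FinFrac A (x + y) := by
  obtain ⟨E, hE, a, b, ha, hb, hb0, hab⟩ := hx
  obtain ⟨E', hE', a', b', ha', hb', hb0', hab'⟩ := hy
  have h1 := coeffSubring_mono (capSubring_mono (A := A) (le_sup_left : E ≤ E ⊔ E'))
  have h2 := coeffSubring_mono (capSubring_mono (A := A) (le_sup_right : E' ≤ E ⊔ E'))
  refine ⟨E ⊔ E', IntermediateField.finiteDimensional_sup E E', a * b' + a' * b, b * b',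
    add_mem (mul_mem (h1 ha) (h2 hb')) (mul_mem (h2 ha') (h1 hb)),
    mul_mem (h1 hb) (h2 hb'), mul_ne_zero hb0 hb0', ?_⟩
  rw [← hab, ← hab']
  ring

theorem FinFrac.mul {x y : LaurentSeries Q̄} (hx : FinFrac A x) (hy : FinFrac A y) :
    FinFrac A (x * y) := by
  obtain ⟨E, hE, a, b, ha, hb, hb0, hab⟩ := hx
  obtain ⟨E', hE', a', b', ha', hb', hb0', hab'⟩ := hy
  have h1 := coeffSubring_mono (capSubring_mono (A := A) (le_sup_left : E ≤ E ⊔ E'))
  have h2 := coeffSubring_mono (capSubring_mono (A := A) (le_sup_right : E' ≤ E ⊔ E'))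
  refine ⟨E ⊔ E', IntermediateField.finiteDimensional_sup E E', a * a', b * b',
    mul_mem (h1 ha) (h2 ha'), mul_mem (h1 hb) (h2 hb'), mul_ne_zero hb0 hb0', ?_⟩
  rw [← hab, ← hab']
  ring

theorem FinFrac.inv {x : LaurentSeries Q̄} (hx : FinFrac A x) : FinFrac A x⁻¹ := by
  rcases eq_or_ne x 0 with rfl | hx0
  · rw [inv_zero]; exact FinFrac.zero
  obtain ⟨E, hE, a, b, ha, hb, hb0, hab⟩ := hx
  have ha0 : a ≠ 0 := by rw [← hab]; exact mul_ne_zero hx0 hb0
  refine ⟨E, hE, b, a, hb, ha, ha0, ?_⟩
  rw [← hab, ← mul_assoc, inv_mul_cancel₀ hx0, one_mul]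

/-- constants are `FinFrac`. -/
theorem FinFrac.const (c : Q̄) : FinFrac A (HahnSeries.C c) := by
  haveI := isAlgebraic_Qbar
  have hfin : FiniteDimensional ℚ ℚ⟮c⟯ := IntermediateField.adjoin.finiteDimensional
    (Algebra.IsAlgebraic.isAlgebraic (R := ℚ) c).isIntegral
  have hcE : c ∈ ℚ⟮c⟯ := mem_adjoin_simple_self ℚ c
  rcases A.mem_or_inv_mem c with h | h
  · exact ⟨ℚ⟮c⟯, hfin, HahnSeries.C c, 1, C_mem_coeffSubring ⟨h, hcE⟩, one_mem _, one_ne_zero,
      by simp⟩
  · rcases eq_or_ne c 0 with rfl | hc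
    · rw [map_zero]; exact FinFrac.zero
    refine ⟨ℚ⟮c⟯, hfin, 1, HahnSeries.C c⁻¹, one_mem _,
      C_mem_coeffSubring ⟨h, (inv_mem hcE : c⁻¹ ∈ ℚ⟮c⟯)⟩, C_ne_zero' (inv_ne_zero hc), ?_⟩
    rw [← map_mul, mul_inv_cancel₀ hc, map_one]

theorem FinFrac.algebraMap (c : Q̄) : FinFrac A (algebraMap Q̄ (LaurentSeries Q̄) c) := by
  rw [algebraMap_laurentSeries_eq_single]
  exact FinFrac.const c

/-- `A`-integral series with coefficients in a finite extension are `FinFrac`. -/
theorem FinFrac.of_mem {E : IntermediateField ℚ Q̄} [hE : FiniteDimensional ℚ E]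
    {a : LaurentSeries Q̄} (ha : a ∈ coeffSubring (capSubring A E)) : FinFrac A a :=
  ⟨E, hE, a, 1, ha, one_mem _, one_ne_zero, by simp⟩

/-- All elements of `Q̄ · F₀` are `FinFrac` if the elements of `F₀` are. -/
theorem finFrac_of_mem_laurentBaseChange {F₀ : IntermediateField ℚ (LaurentSeries ℚ)}
    (hF₀ : ∀ z ∈ F₀, FinFrac A (coeffEmb Q̄ z)) {x : LaurentSeries Q̄}
    (hx : x ∈ laurentBaseChange Q̄ F₀) : FinFrac A x := by
  rw [mem_laurentBaseChange_iff] at hx
  induction hx using Subfield.closure_induction with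
  | mem y hy =>
      rcases hy with ⟨a, rfl⟩ | ⟨z, hz, rfl⟩
      · exact FinFrac.algebraMap a
      · exact hF₀ z hz
  | one => exact FinFrac.one
  | add x y _ _ hx hy => exact hx.add hy
  | neg x _ hx => exact hx.neg
  | inv x _ hx => exact hx.inv
  | mul x y _ _ hx hy => exact hx.mul hy

/-- `F₀`-side: it is enough to check generators of `F₀ = ℚ(S)`. -/
theorem finFrac_coeffEmb_of_adjoin {S : Set (LaurentSeries ℚ)}
    (hS : ∀ z ∈ S, FinFrac A (coeffEmb Q̄ z)) {z : LaurentSeries ℚ}
    (hz : z ∈ IntermediateField.adjoin ℚ S) : FinFrac A (coeffEmb Q̄ z) := by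
  have hz' : z ∈ Subfield.closure (Set.range (algebraMap ℚ (LaurentSeries ℚ)) ∪ S) := hz
  clear hz
  induction hz' using Subfield.closure_induction with
  | mem y hy =>
      rcases hy with ⟨r, rfl⟩ | hy
      · have : coeffEmb Q̄ (algebraMap ℚ (LaurentSeries ℚ) r) =
            algebraMap Q̄ (LaurentSeries Q̄) (algebraMap ℚ Q̄ r) := by
          rw [algebraMap_laurentSeries_eq_single, algebraMap_laurentSeries_eq_single]
          exact coeffMap_single _ _ _
        rw [this]
        exact FinFrac.algebraMap _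
      · exact hS y hy
  | one => rw [map_one]; exact FinFrac.one
  | add x y _ _ hx hy => rw [map_add]; exact hx.add hy
  | neg x _ hx => rw [map_neg]; exact hx.neg
  | inv x _ hx => rw [map_inv₀]; exact hx.inv
  | mul x y _ _ hx hy => rw [map_mul]; exact hx.mul hy

end FinFrac

end Fermat.Agent.A2.H553
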