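import Mathlib
import Fermat.Prelude.Def_FLTPrelim_Ramification
import Fermat.Agent.A2.H553.Discrete

/-!
# A2 / K2c (helper553): primitive factorisation over `A ∩ E` and Gauss forms

* `exists_uniformizer` : discreteness of `v_A` on a finite extension `E/ℚ`;
* `exists_prim_factor` : a nonzero series with coefficients in `A ∩ E` is `C c * (primitive)`;
* `FinFrac.hasGaussForm` : `FinFrac A x`, `x ≠ 0` ⟹ `HasGaussForm A x`.
-/

set_option autoImplicit false
set_option linter.unusedSectionVars false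
set_option linter.style.haveILetI false

noncomputable section

namespace Fermat.Agent.A2.H553

open ModularCurve HahnSeries IntermediateField Fermat.Agent.S28.H86 Fermat.Agent.S18.H602

local notation "Q̄" => AlgebraicClosure ℚ

variable {A : ValuationSubring Q̄} {ℓ : ℕ}

/-- Discreteness of `v_A` on a finite extension `E` of `ℚ`. -/
theorem exists_uniformizer (hℓ : ℓ ≠ 0) (hA : A.LiesOverPrime ℓ)
    (E : IntermediateField ℚ Q̄) [FiniteDimensional ℚ E] :
    ∃ ϖ : Q̄, ϖ ≠ 0 ∧ A.valuation ϖ < 1 ∧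
      ∀ y : Q̄, y ∈ A → y ∈ E → y ≠ 0 → ∃ k : ℕ, A.valuation y = A.valuation ϖ ^ k := by
  haveI : IsDiscreteValuationRing ↥(RE A E) := isDiscreteValuationRing_RE A E hℓ hA
  obtain ⟨ϖ, hϖ⟩ := IsDiscreteValuationRing.exists_irreducible ↥(RE A E)
  have hunit : ∀ u : (↥(RE A E))ˣ, A.valuation (((u : ↥(RE A E)) : E) : Q̄) = 1 := by
    intro u
    have h1 : ((((u : ↥(RE A E)) : E) : Q̄)) ∈ A := (u : ↥(RE A E)).2
    have h2 : (((((u⁻¹ : (↥(RE A E))ˣ) : ↥(RE A E)) : E) : Q̄)) ∈ A :=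
      ((u⁻¹ : (↥(RE A E))ˣ) : ↥(RE A E)).2
    have h3 : ((((u : ↥(RE A E)) : E) : Q̄)) *
        (((((u⁻¹ : (↥(RE A E))ˣ) : ↥(RE A E)) : E) : Q̄)) = 1 := by
      exact congrArg (fun z : ↥(RE A E) => ((z : E) : Q̄)) (u.mul_inv)
    have e1 := (A.valuation_le_one_iff _).mpr h1
    have e2 := (A.valuation_le_one_iff _).mpr h2
    have e3 := congrArg A.valuation h3
    rw [map_mul, map_one] at e3
    by_contra hne
    have hlt : A.valuation ((((u : ↥(RE A E)) : E) : Q̄)) < 1 := lt_of_le_of_ne e1 hne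
    have : A.valuation ((((u : ↥(RE A E)) : E) : Q̄)) *
        A.valuation (((((u⁻¹ : (↥(RE A E))ˣ) : ↥(RE A E)) : E) : Q̄)) < 1 :=
      mul_lt_one_of_nonneg_of_lt_one_left zero_le hlt e2
    rw [e3] at this
    exact lt_irrefl _ this
  refine ⟨((ϖ : E) : Q̄), ?_, ?_, ?_⟩
  · intro h0
    apply hϖ.ne_zero
    apply Subtype.ext
    apply Subtype.ext
    simpa using h0
  · have h1 : A.valuation ((ϖ : E) : Q̄) ≤ 1 := (A.valuation_le_one_iff _).mpr ϖ.2
    refine lt_of_le_of_ne h1 ?_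
    intro h1'
    apply hϖ.not_isUnit
    have hϖ0 : ((ϖ : E) : Q̄) ≠ 0 := by
      intro h0
      rw [h0, map_zero] at h1'
      exact zero_ne_one h1'
    have hinvA : (((ϖ : E) : Q̄))⁻¹ ∈ A := by
      rw [← A.valuation_le_one_iff, map_inv₀, h1', inv_one]
    have hinv : ((ϖ : E)⁻¹ : E) ∈ RE A E := by
      rw [mem_RE]
      have : (((ϖ : E)⁻¹ : E) : Q̄) = (((ϖ : E) : Q̄))⁻¹ := by simp
      rw [this]
      exact hinvA
    have hϖE : (ϖ : E) ≠ 0 := by
      intro h0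
      apply hϖ0
      rw [h0]; rfl
    exact isUnit_iff_exists_inv.mpr ⟨⟨(ϖ : E)⁻¹, hinv⟩, Subtype.ext (mul_inv_cancel₀ hϖE)⟩
  · intro y hyA hyE hy0
    set y' : ↥(RE A E) := ⟨⟨y, hyE⟩, hyA⟩ with hy'
    have hy'0 : y' ≠ 0 := by
      intro h0
      apply hy0
      have := congrArg (fun z : ↥(RE A E) => ((z : E) : Q̄)) h0
      simpa [hy'] using this
    obtain ⟨n, u, hu⟩ := IsDiscreteValuationRing.eq_unit_mul_pow_irreducible hy'0 hϖ
    refine ⟨n, ?_⟩
    have h1 : y = (((u : ↥(RE A E)) : E) : Q̄) * (((ϖ : E) : Q̄)) ^ n := by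
      have := congrArg (fun z : ↥(RE A E) => ((z : E) : Q̄)) hu
      simpa [hy'] using this
    rw [h1, map_mul, map_pow, hunit u, one_mul]

/-- Primitive factorisation: a nonzero series with coefficients in `A ∩ E` (`E/ℚ` finite) is a
nonzero constant times a primitive `A`-integral series. -/
theorem exists_prim_factor (hℓ : ℓ ≠ 0) (hA : A.LiesOverPrime ℓ)
    {E : IntermediateField ℚ Q̄} [FiniteDimensional ℚ E] {a : LaurentSeries Q̄}
    (ha : a ∈ coeffSubring (capSubring A E)) (ha0 : a ≠ 0) :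
    ∃ c : Q̄, c ≠ 0 ∧ ∃ a' : LaurentSeries ↥A.toSubring,
      redL (resA A) a' ≠ 0 ∧ a = HahnSeries.C c * inclL A.toSubring a' := by
  classical
  obtain ⟨ϖ, hϖ0, hϖ1, hval⟩ := exists_uniformizer hℓ hA E
  have hvϖ : A.valuation ϖ ≠ 0 := (Valuation.ne_zero_iff _).mpr hϖ0
  have hvpos : 0 < A.valuation ϖ := zero_lt_iff.mpr hvϖ
  -- the set of exponents
  have hex : ∃ k : ℕ, ∃ n, a.coeff n ≠ 0 ∧ A.valuation (a.coeff n) = A.valuation ϖ ^ k := by
    obtain ⟨n, hn⟩ : ∃ n, a.coeff n ≠ 0 := by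
      by_contra hcon
      push Not at hcon
      exact ha0 (HahnSeries.ext (funext hcon))
    obtain ⟨k, hk⟩ := hval _ (ha n).1 (ha n).2 hn
    exact ⟨k, n, hn, hk⟩
  set k₀ := Nat.find hex with hk₀
  obtain ⟨n₀, hn₀, hvn₀⟩ := Nat.find_spec hex
  have hmin : ∀ n, a.coeff n ≠ 0 → ∃ k, k₀ ≤ k ∧ A.valuation (a.coeff n) = A.valuation ϖ ^ k := by
    intro n hn
    obtain ⟨k, hk⟩ := hval _ (ha n).1 (ha n).2 hn
    exact ⟨k, Nat.find_min' hex ⟨n, hn, hk⟩, hk⟩
  set c : Q̄ := ϖ ^ k₀ with hc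
  have hc0 : c ≠ 0 := pow_ne_zero _ hϖ0
  have hvc : A.valuation c = A.valuation ϖ ^ k₀ := by rw [hc, map_pow]
  -- the scaled series
  set a'' : LaurentSeries Q̄ := HahnSeries.C c⁻¹ * a with ha''
  have hcoeff : ∀ n, a''.coeff n = c⁻¹ * a.coeff n := fun n => coeff_C_mul' _ _ _
  have hint : a'' ∈ coeffSubring A.toSubring := by
    intro n
    rw [hcoeff]
    rcases eq_or_ne (a.coeff n) 0 with h0 | h0
    · rw [h0, mul_zero]; exact A.zero_mem
    · obtain ⟨k, hk, hvk⟩ := hmin n h0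
      show c⁻¹ * a.coeff n ∈ A
      rw [← A.valuation_le_one_iff, map_mul, map_inv₀, hvc, hvk]
      obtain ⟨d, rfl⟩ := Nat.exists_eq_add_of_le hk
      rw [_root_.pow_add, ← mul_assoc, inv_mul_cancel₀ (pow_ne_zero _ hvϖ), one_mul]
      exact pow_le_one₀ zero_le hϖ1.le
  obtain ⟨a', ha'⟩ := exists_inclL_eq hint
  refine ⟨c, hc0, a', ?_, ?_⟩
  · rw [redL_ne_zero_iff]
    refine ⟨n₀, ?_⟩
    have : ((a'.coeff n₀ : ↥A.toSubring) : Q̄) = a''.coeff n₀ := by
      rw [← ha', inclL_coeff]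
    rw [this, hcoeff, map_mul, map_inv₀, hvc, hvn₀, ← hk₀,
      inv_mul_cancel₀ (pow_ne_zero _ hvϖ)]
  · rw [ha', ha'', ← mul_assoc, ← map_mul, mul_inv_cancel₀ hc0, map_one, one_mul]

/-- `FinFrac` elements are constants times Gauss units. -/
theorem FinFrac.hasGaussForm (hℓ : ℓ ≠ 0) (hA : A.LiesOverPrime ℓ) {x : LaurentSeries Q̄}
    (h : FinFrac A x) (hx : x ≠ 0) : HasGaussForm A x := by
  obtain ⟨E, hE, a, b, ha, hb, hb0, hab⟩ := h
  haveI := hE
  have ha0 : a ≠ 0 := by rw [← hab]; exact mul_ne_zero hx hb0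
  obtain ⟨ca, hca, a', ha', rfl⟩ := exists_prim_factor hℓ hA ha ha0
  obtain ⟨cb, hcb, b', hb', rfl⟩ := exists_prim_factor hℓ hA hb hb0
  refine ⟨ca / cb, div_ne_zero hca hcb, a', b', ha', hb', ?_⟩
  have hCb := C_ne_zero' (K := Q̄) hcb
  have e : (HahnSeries.C (ca / cb) : LaurentSeries Q̄) = HahnSeries.C ca * (HahnSeries.C cb)⁻¹ := by
    rw [div_eq_mul_inv, map_mul]
    congr 1
    apply eq_inv_of_mul_eq_one_left
    rw [← map_mul, inv_mul_cancel₀ hcb, map_one]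
  rw [e]
  have h2 : x * inclL A.toSubring b' * HahnSeries.C cb =
      HahnSeries.C ca * inclL A.toSubring a' := by
    rw [← hab]; ring
  calc x * inclL A.toSubring b'
      = (x * inclL A.toSubring b' * HahnSeries.C cb) * (HahnSeries.C cb)⁻¹ := by
        rw [mul_assoc, mul_inv_cancel₀ hCb, mul_one]
    _ = HahnSeries.C ca * (HahnSeries.C cb)⁻¹ * inclL A.toSubring a' := by
        rw [h2]; ring

end Fermat.Agent.A2.H553
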