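import Mathlib
import Fermat.Prelude.Def_FLTPrelim_Ramification
import Fermat.Prelude.Def_ModularCurve_ArithmeticGalois
import Fermat.Prelude.Def_ModularCurve_X0ModL
import Fermat.Agent.A2.H708.Tame
import Fermat.Agent.A2.H129.GaussTwice
import Fermat.Agent.A2.H553.Prim

/-!
# A2 / K2c (helper553): the Gauss valuation `V∞` of `Q̄(X₀(N)) ⊆ Q̄((q))` over `A`

`A ⊆ Q̄` a valuation subring over a prime `ℓ`, `F₀ ⊆ ℚ((q))` a subfield all of whose elements are
`FinFrac` (e.g. `modularFunctionFieldFull N`, any `N`), `F̄ = laurentBaseChange Q̄ F₀`.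

* `Vinf A F₀ h : ValuationSubring F̄` — the Gauss valuation ring `F̄ ∩ gaussA A`
  (`x ∈ Vinf ↔ x = a/b`, `a, b` `A`-integral `q`-series, `b` primitive: `mem_Vinf_iff`);
* `redInf : Vinf →+* k_A((q))` with `redInf x = 0 ↔ v x < 1` (`redInf_eq_zero_iff`);
* `algebraMap_mem_Vinf_iff` : `Vinf ∩ Q̄ = A`;
* the three hypotheses of helper129's K2 (`Fermat.Agent.A2.H129.GaussTwice`):
  `hasConstValues_Vinf`, `preservesConstValues_Vinf`, `inInertia_Vinf`
  for `τ = arithmeticRingAut F₀ σ`, `σ ∈ A.inertiaSubgroupIn ℚ` (resp. decomposition group);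
* `gaussInput_modular` : the hypotheses hold for `F₀ = modularFunctionFieldFull N`.
-/

set_option autoImplicit false
set_option linter.unusedSectionVars false
set_option linter.style.haveILetI false

noncomputable section

namespace Fermat.Agent.A2.H553

open ModularCurve HahnSeries IntermediateField AlgebraicCurve
open Fermat.Agent.S28.H86 Fermat.Agent.S18.H602 Fermat.Agent.A2.H129

local notation "Q̄" => AlgebraicClosure ℚ

/-- The input of the construction: `A` lies over a prime and `F₀` consists of `FinFrac`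
elements. -/
structure GaussInput (A : ValuationSubring Q̄) (F₀ : IntermediateField ℚ (LaurentSeries ℚ)) :
    Prop where
  exists_prime : ∃ ℓ : ℕ, ℓ ≠ 0 ∧ A.LiesOverPrime ℓ
  finFrac : ∀ z ∈ F₀, FinFrac A (coeffEmb Q̄ z)

variable {A : ValuationSubring Q̄} {F₀ : IntermediateField ℚ (LaurentSeries ℚ)}

/-- Every nonzero element of `F̄` is a constant times a Gauss unit. -/
theorem GaussInput.hasGaussForm (h : GaussInput A F₀) {x : LaurentSeries Q̄}
    (hx : x ∈ laurentBaseChange Q̄ F₀) (hx0 : x ≠ 0) : HasGaussForm A x := by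
  obtain ⟨ℓ, hℓ, hA⟩ := h.exists_prime
  exact (finFrac_of_mem_laurentBaseChange h.finFrac hx).hasGaussForm hℓ hA hx0

/-- The Gauss valuation ring of `F̄ = Q̄ · F₀`. -/
def Vinf (A : ValuationSubring Q̄) (F₀ : IntermediateField ℚ (LaurentSeries ℚ))
    (h : GaussInput A F₀) : ValuationSubring ↥(laurentBaseChange Q̄ F₀) where
  toSubring := (gaussA A).comap
    ((laurentBaseChange Q̄ F₀).val : ↥(laurentBaseChange Q̄ F₀) →+* LaurentSeries Q̄)
  mem_or_inv_mem' := by
    intro x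
    rcases eq_or_ne x 0 with rfl | hx
    · exact Or.inl (Subring.zero_mem _)
    · have hx0 : (x : LaurentSeries Q̄) ≠ 0 := fun h0 => hx (Subtype.ext h0)
      rcases (h.hasGaussForm x.2 hx0).mem_or_inv_mem with h1 | h1
      · exact Or.inl h1
      · exact Or.inr h1

theorem mem_Vinf_iff (h : GaussInput A F₀) {x : ↥(laurentBaseChange Q̄ F₀)} :
    x ∈ Vinf A F₀ h ↔ (x : LaurentSeries Q̄) ∈ gaussA A := Iff.rfl

/-- general: valuation one iff the element and its inverse are integral -/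
theorem valuation_eq_one_iff_mem {F : Type*} [Field F] (V : ValuationSubring F) {x : F}
    (hx : x ≠ 0) : V.valuation x = 1 ↔ x ∈ V ∧ x⁻¹ ∈ V := by
  rw [← V.valuation_le_one_iff, ← V.valuation_le_one_iff, map_inv₀]
  have hv : V.valuation x ≠ 0 := (Valuation.ne_zero_iff _).mpr hx
  constructor
  · intro h; rw [h]; simp
  · rintro ⟨h1, h2⟩
    exact le_antisymm h1 ((inv_le_one₀ (zero_lt_iff.mpr hv)).mp h2)

/-- general: valuation `< 1` iff integral and not a unit -/
theorem valuation_lt_one_iff_mem {F : Type*} [Field F] (V : ValuationSubring F) {x : F} :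
    V.valuation x < 1 ↔ x ∈ V ∧ (x = 0 ∨ x⁻¹ ∉ V) := by
  rcases eq_or_ne x 0 with rfl | hx
  · simp
  · rw [lt_iff_le_and_ne, V.valuation_le_one_iff, Ne, valuation_eq_one_iff_mem V hx]
    constructor
    · rintro ⟨h1, h2⟩
      exact ⟨h1, Or.inr fun h3 => h2 ⟨h1, h3⟩⟩
    · rintro ⟨h1, h2 | h2⟩
      · exact absurd h2 hx
      · exact ⟨h1, fun h3 => h2 h3.2⟩

/-- The reduction map `V∞ → k_A((q))`. -/
def redInf (h : GaussInput A F₀) :
    ↥(Vinf A F₀ h) →+* LaurentSeries (IsLocalRing.ResidueField ↥A) :=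
  (redA A).comp
    (((laurentBaseChange Q̄ F₀).val : ↥(laurentBaseChange Q̄ F₀) →+* LaurentSeries Q̄).restrict
      (Vinf A F₀ h).toSubring (gaussA A) (fun _ hx => hx))

theorem redInf_apply (h : GaussInput A F₀) (x : ↥(Vinf A F₀ h)) :
    redInf h x = redA A ⟨((x : ↥(laurentBaseChange Q̄ F₀)) : LaurentSeries Q̄), x.2⟩ := rfl

theorem redInf_eq (h : GaussInput A F₀) (x : ↥(Vinf A F₀ h))
    (a b : LaurentSeries ↥A.toSubring) (hb : redL (resA A) b ≠ 0)
    (hab : ((x : ↥(laurentBaseChange Q̄ F₀)) : LaurentSeries Q̄) * inclL A.toSubring b =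
      inclL A.toSubring a) :
    redInf h x = redL (resA A) a / redL (resA A) b :=
  redA_eq ⟨_, x.2⟩ a b hb hab

/-- the kernel of the reduction is the maximal ideal -/
theorem redInf_eq_zero_iff (h : GaussInput A F₀) (x : ↥(Vinf A F₀ h)) :
    redInf h x = 0 ↔ (Vinf A F₀ h).valuation (x : ↥(laurentBaseChange Q̄ F₀)) < 1 := by
  rw [valuation_lt_one_iff_mem]
  constructor
  · intro h0
    refine ⟨x.2, ?_⟩
    by_contra hcon
    push Not at hcon
    obtain ⟨hx0, hxinv⟩ := hcon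
    have hx0' : ((x : ↥(laurentBaseChange Q̄ F₀)) : LaurentSeries Q̄) ≠ 0 :=
      fun h1 => hx0 (Subtype.ext h1)
    exact redA_ne_zero_of_inv_mem ⟨_, x.2⟩ hx0' hxinv h0
  · rintro ⟨-, h1 | h1⟩
    · have : x = 0 := Subtype.ext h1
      rw [this, map_zero]
    · by_contra hne
      exact h1 (inv_mem_gaussA_of_redA_ne_zero ⟨_, x.2⟩ hne)

/-- `V∞ ∩ Q̄ = A`. -/
theorem algebraMap_mem_Vinf_iff (h : GaussInput A F₀) {c : Q̄} :
    algebraMap Q̄ ↥(laurentBaseChange Q̄ F₀) c ∈ Vinf A F₀ h ↔ c ∈ A := by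
  rw [mem_Vinf_iff]
  have : ((algebraMap Q̄ ↥(laurentBaseChange Q̄ F₀) c : ↥(laurentBaseChange Q̄ F₀)) :
      LaurentSeries Q̄) = HahnSeries.C c := by
    show algebraMap Q̄ (LaurentSeries Q̄) c = _
    rw [algebraMap_laurentSeries_eq_single]
    rfl
  rw [this]
  exact const_mem_gaussA

theorem valuation_algebraMap_eq_one (h : GaussInput A F₀) {c : Q̄} (hc : A.valuation c = 1) :
    (Vinf A F₀ h).valuation (algebraMap Q̄ ↥(laurentBaseChange Q̄ F₀) c) = 1 := by
  have hc0 : c ≠ 0 := by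
    rintro rfl
    rw [map_zero] at hc
    exact zero_ne_one hc
  rw [valuation_eq_one_iff_mem _ (by simpa using hc0), ← map_inv₀, algebraMap_mem_Vinf_iff,
    algebraMap_mem_Vinf_iff, ← A.valuation_le_one_iff, ← A.valuation_le_one_iff, map_inv₀, hc]
  simp

/-! ### The hypotheses of K2 -/

/-- the subfield of constants of `F̄` -/
def constField (F₀ : IntermediateField ℚ (LaurentSeries ℚ)) :
    Subfield ↥(laurentBaseChange Q̄ F₀) :=
  (algebraMap Q̄ ↥(laurentBaseChange Q̄ F₀)).fieldRange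

theorem mem_constField {x : ↥(laurentBaseChange Q̄ F₀)} :
    x ∈ constField F₀ ↔ ∃ c : Q̄, algebraMap Q̄ ↥(laurentBaseChange Q̄ F₀) c = x :=
  Iff.rfl

/-- Galois preserves the constants. -/
theorem arithmeticRingAut_mem_constField (σ : Q̄ ≃ₐ[ℚ] Q̄) {c : ↥(laurentBaseChange Q̄ F₀)}
    (hc : c ∈ constField F₀) : arithmeticRingAut F₀ σ c ∈ constField F₀ := by
  obtain ⟨c₀, rfl⟩ := hc
  exact ⟨σ c₀, (arithmeticRingAut_algebraMap F₀ σ c₀).symm⟩

/-- **K2 hypothesis `HasConstValues`** for `V∞`. -/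
theorem hasConstValues_Vinf (h : GaussInput A F₀) :
    HasConstValues (constField F₀) (Vinf A F₀ h) := by
  intro f hf
  have hf0 : (f : LaurentSeries Q̄) ≠ 0 := fun h0 => hf (Subtype.ext h0)
  obtain ⟨c, hc, a, b, ha, hb, hab⟩ := h.hasGaussForm f.2 hf0
  refine ⟨algebraMap Q̄ _ c, ⟨c, rfl⟩, by simpa using hc, ?_⟩
  have hC := C_ne_zero' (K := Q̄) hc
  have hcoe : ((f * (algebraMap Q̄ ↥(laurentBaseChange Q̄ F₀) c)⁻¹ :
      ↥(laurentBaseChange Q̄ F₀)) : LaurentSeries Q̄) =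
      (f : LaurentSeries Q̄) * (HahnSeries.C c)⁻¹ := by
    have : ((algebraMap Q̄ ↥(laurentBaseChange Q̄ F₀) c : ↥(laurentBaseChange Q̄ F₀)) :
        LaurentSeries Q̄) = HahnSeries.C c := by
      show algebraMap Q̄ (LaurentSeries Q̄) c = _
      rw [algebraMap_laurentSeries_eq_single]
      rfl
    rw [← this]
    rfl
  have hrel : (f : LaurentSeries Q̄) * (HahnSeries.C c)⁻¹ * inclL A.toSubring b =
      inclL A.toSubring a := by
    calc (f : LaurentSeries Q̄) * (HahnSeries.C c)⁻¹ * inclL A.toSubring b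
        = (HahnSeries.C c)⁻¹ * ((f : LaurentSeries Q̄) * inclL A.toSubring b) := by ring
      _ = inclL A.toSubring a := by rw [hab, ← mul_assoc, inv_mul_cancel₀ hC, one_mul]
  have hmem : (f : LaurentSeries Q̄) * (HahnSeries.C c)⁻¹ ∈ gaussA A := ⟨a, b, hb, hrel⟩
  have hred : redA A ⟨_, hmem⟩ ≠ 0 := by
    rw [redA_eq ⟨_, hmem⟩ a b hb hrel]
    exact div_ne_zero ha hb
  have hinv := inv_mem_gaussA_of_redA_ne_zero ⟨_, hmem⟩ hred
  have hne : f * (algebraMap Q̄ ↥(laurentBaseChange Q̄ F₀) c)⁻¹ ≠ 0 :=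
    mul_ne_zero hf (inv_ne_zero (by simpa using hc))
  show (Vinf A F₀ h).valuation _ = 1
  rw [valuation_eq_one_iff_mem _ hne, mem_Vinf_iff, mem_Vinf_iff]
  refine ⟨by rw [hcoe]; exact hmem, ?_⟩
  have : (((f * (algebraMap Q̄ ↥(laurentBaseChange Q̄ F₀) c)⁻¹)⁻¹ :
      ↥(laurentBaseChange Q̄ F₀)) : LaurentSeries Q̄) =
      ((f : LaurentSeries Q̄) * (HahnSeries.C c)⁻¹)⁻¹ := by
    rw [← hcoe]
    push_cast
    rfl
  rw [this]
  exact hinv

/-- **K2 hypothesis `PreservesConstValues`** for `V∞` and `σ` in the decomposition group. -/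
theorem preservesConstValues_Vinf (h : GaussInput A F₀) {σ : Q̄ ≃ₐ[ℚ] Q̄}
    (hσ : σ ∈ A.decompositionSubgroup ℚ) :
    PreservesConstValues (constField F₀) (Vinf A F₀ h) (arithmeticRingAut F₀ σ) := by
  haveI := isAlgebraic_Qbar
  rintro c ⟨c₀, rfl⟩ hc
  have hc₀ : c₀ ≠ 0 := by
    rintro rfl
    exact hc (map_zero _)
  show (Vinf A F₀ h).valuation _ = 1
  rw [arithmeticRingAut_algebraMap, ← map_inv₀, ← map_mul]
  apply valuation_algebraMap_eq_one
  rw [← div_eq_mul_inv]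
  exact Fermat.Agent.A2.H708.valuation_apply_div_self A hσ hc₀

/-! ### Inertia acts trivially on the residue field of `V∞` -/

/-- restriction of `σ` in the decomposition group to `A` -/
def restrictA (A : ValuationSubring Q̄) {σ : Q̄ ≃ₐ[ℚ] Q̄} (hσ : σ ∈ A.decompositionSubgroup ℚ) :
    ↥A.toSubring →+* ↥A.toSubring :=
  ((σ : Q̄ →+* Q̄).comp A.toSubring.subtype).codRestrict A.toSubring
    (fun x => Fermat.Agent.A2.H708.apply_mem_of_mem_decomposition A hσ x.2)

theorem coe_restrictA {σ : Q̄ ≃ₐ[ℚ] Q̄} (hσ : σ ∈ A.decompositionSubgroup ℚ)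
    (x : ↥A.toSubring) : ((restrictA A hσ x : ↥A.toSubring) : Q̄) = σ (x : Q̄) := rfl

theorem coeffMap_inclL {σ : Q̄ ≃ₐ[ℚ] Q̄} (hσ : σ ∈ A.decompositionSubgroup ℚ)
    (a : LaurentSeries ↥A.toSubring) :
    coeffMap (σ : Q̄ →+* Q̄) (inclL A.toSubring a) =
      inclL A.toSubring (coeffMap (restrictA A hσ) a) := by
  ext n
  rfl

theorem redL_coeffMap_restrictA {σ : Q̄ ≃ₐ[ℚ] Q̄} (hσ : σ ∈ A.inertiaSubgroupIn ℚ)
    (a : LaurentSeries ↥A.toSubring) :
    redL (resA A)
      (coeffMap (restrictA A (Fermat.Agent.A2.H708.mem_decomposition_of_mem_inertiaIn A hσ)) a)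
      = redL (resA A) a := by
  ext n
  rw [redL_coeff, redL_coeff, coeffMap_coeff, ← sub_eq_zero, ← map_sub, resA_eq_zero_iff]
  exact Fermat.Agent.A2.H708.valuation_sub_lt_one_of_mem_inertiaIn A hσ
    ((A.valuation_le_one_iff _).mpr (a.coeff n).2)

/-- the decomposition group preserves `V∞` -/
theorem arithmeticRingAut_mem_Vinf (h : GaussInput A F₀) {σ : Q̄ ≃ₐ[ℚ] Q̄}
    (hσ : σ ∈ A.decompositionSubgroup ℚ) {u : ↥(laurentBaseChange Q̄ F₀)}
    (hu : u ∈ Vinf A F₀ h) : arithmeticRingAut F₀ σ u ∈ Vinf A F₀ h := by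
  obtain ⟨a, b, hb, hab⟩ := hu
  have hinj : Function.Injective (coeffMap (restrictA A hσ)) := by
    apply coeffMap_injective
    intro x y hxy
    apply Subtype.ext
    have := congrArg (fun z : ↥A.toSubring => (z : Q̄)) hxy
    simp only [coe_restrictA] at this
    exact σ.injective this
  refine ⟨coeffMap (restrictA A hσ) a, coeffMap (restrictA A hσ) b, ?_, ?_⟩
  · -- `redL` of the twisted denominator is nonzero: the twist is primitive again
    rw [redL_ne_zero_iff] at hb ⊢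
    obtain ⟨n, hn⟩ := hb
    refine ⟨n, ?_⟩
    rw [coeffMap_coeff, coe_restrictA]
    haveI := isAlgebraic_Qbar
    rw [Fermat.Agent.A2.H708.valuation_apply_of_mem_decomposition A hσ]
    exact hn
  · show coeffMap (σ : Q̄ →+* Q̄) (u : LaurentSeries Q̄) * _ = _
    rw [← coeffMap_inclL hσ, ← coeffMap_inclL hσ, ← map_mul]
    exact congrArg _ hab

/-- **K2 hypothesis `InInertia`** for `V∞`: the inertia group of `A` acts trivially on the residue
field of `V∞`. -/
theorem inInertia_Vinf (h : GaussInput A F₀) {σ : Q̄ ≃ₐ[ℚ] Q̄}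
    (hσ : σ ∈ A.inertiaSubgroupIn ℚ) :
    InInertia (Vinf A F₀ h) (arithmeticRingAut F₀ σ) := by
  intro u hu
  have hσD := Fermat.Agent.A2.H708.mem_decomposition_of_mem_inertiaIn A hσ
  have huV : u ∈ Vinf A F₀ h := ((Vinf A F₀ h).valuation_le_one_iff u).mp hu
  have hτuV := arithmeticRingAut_mem_Vinf h hσD huV
  have hsub : arithmeticRingAut F₀ σ u - u ∈ Vinf A F₀ h := sub_mem hτuV huV
  have key : redInf h ⟨_, hτuV⟩ = redInf h ⟨u, huV⟩ := by
    obtain ⟨a, b, hb, hab⟩ := huV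
    have hb' : redL (resA A) (coeffMap (restrictA A hσD) b) ≠ 0 := by
      rw [redL_coeffMap_restrictA hσ]; exact hb
    have hab' : ((arithmeticRingAut F₀ σ u : ↥(laurentBaseChange Q̄ F₀)) : LaurentSeries Q̄) *
        inclL A.toSubring (coeffMap (restrictA A hσD) b) =
        inclL A.toSubring (coeffMap (restrictA A hσD) a) := by
      show coeffMap (σ : Q̄ →+* Q̄) (u : LaurentSeries Q̄) * _ = _
      rw [← coeffMap_inclL hσD, ← coeffMap_inclL hσD, ← map_mul]
      exact congrArg _ hab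
    rw [redInf_eq h ⟨_, hτuV⟩ _ _ hb' hab', redInf_eq h ⟨u, _⟩ a b hb hab,
      redL_coeffMap_restrictA hσ, redL_coeffMap_restrictA hσ]
  have h0 : redInf h ⟨_, hsub⟩ = 0 := by
    have : (⟨_, hsub⟩ : ↥(Vinf A F₀ h)) = ⟨_, hτuV⟩ - ⟨u, huV⟩ := rfl
    rw [this, map_sub, key, sub_self]
  exact (redInf_eq_zero_iff h ⟨_, hsub⟩).mp h0

/-- the reduction map is invariant under inertia -/
theorem redInf_arithmeticRingAut (h : GaussInput A F₀) {σ : Q̄ ≃ₐ[ℚ] Q̄}
    (hσ : σ ∈ A.inertiaSubgroupIn ℚ) (u : ↥(laurentBaseChange Q̄ F₀)) (hu : u ∈ Vinf A F₀ h) :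
    redInf h ⟨arithmeticRingAut F₀ σ u, arithmeticRingAut_mem_Vinf h
      (Fermat.Agent.A2.H708.mem_decomposition_of_mem_inertiaIn A hσ) hu⟩ =
      redInf h ⟨u, hu⟩ := by
  have hσD := Fermat.Agent.A2.H708.mem_decomposition_of_mem_inertiaIn A hσ
  obtain ⟨a, b, hb, hab⟩ := hu
  have hb' : redL (resA A) (coeffMap (restrictA A hσD) b) ≠ 0 := by
    rw [redL_coeffMap_restrictA hσ]; exact hb
  have hab' : ((arithmeticRingAut F₀ σ u : ↥(laurentBaseChange Q̄ F₀)) : LaurentSeries Q̄) *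
      inclL A.toSubring (coeffMap (restrictA A hσD) b) =
      inclL A.toSubring (coeffMap (restrictA A hσD) a) := by
    show coeffMap (σ : Q̄ →+* Q̄) (u : LaurentSeries Q̄) * _ = _
    rw [← coeffMap_inclL hσD, ← coeffMap_inclL hσD, ← map_mul]
    exact congrArg _ hab
  rw [redInf_eq h ⟨_, _⟩ _ _ hb' hab', redInf_eq h ⟨u, _⟩ a b hb hab,
    redL_coeffMap_restrictA hσ, redL_coeffMap_restrictA hσ]

end Fermat.Agent.A2.H553
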