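import Mathlib
import Fermat.Agent.A2.H708.GaussInf
import Fermat.Agent.A2.H553.Vinf

/-!
# A2 / VINF (helper553): the two definitions of `V∞` on main agree

`Fermat.Agent.A2.H553.Vinf A F₀ h` (fractions `a / b` of `A`-integral series, `b` primitive) and
`Fermat.Agent.A2.H708.gaussInf A F₀ hgen hmax` (the same with `b ∈ F`) are the SAME valuation
subring of `Q̄ · F₀`.  So every statement proved for one of them transfers to the other by `rw`.
-/

set_option autoImplicit false
set_option linter.unusedSectionVars false

noncomputable section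

namespace Fermat.Agent.A2.H553

open ModularCurve HahnSeries IntermediateField
open Fermat.Agent.S28.H86

local notation "Q̄" => AlgebraicClosure ℚ

variable {A : ValuationSubring Q̄} {F₀ : IntermediateField ℚ (LaurentSeries ℚ)}

theorem Vinf_eq_gaussInf (h : GaussInput A F₀) (hgen : Fermat.Agent.A2.H708.IntGen F₀)
    (hmax : Fermat.Agent.A2.H708.AttainsMax A F₀) :
    Vinf A F₀ h = Fermat.Agent.A2.H708.gaussInf A F₀ hgen hmax := by
  ext f
  constructor
  · intro hf
    rcases eq_or_ne f 0 with rfl | hf0
    · exact Subring.zero_mem _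
    have hf0' : (f : LaurentSeries Q̄) ≠ 0 := fun h0 => hf0 (Subtype.ext h0)
    obtain ⟨c, U₁, U₂, hc, h₁, h₂, hm₁, hm₂, he⟩ :=
      Fermat.Agent.A2.H708.exists_normal_form hgen hmax f.2 hf0'
    refine (Fermat.Agent.A2.H708.isGaussInt_iff_of_normal_form h₁ h₂ hm₂ he).mpr ?_
    -- read off `c ∈ A` from membership in `gaussA A`
    have he' : (f : LaurentSeries Q̄) * inclL A.toSubring U₂ =
        HahnSeries.C c * inclL A.toSubring U₁ := by
      have : (HahnSeries.C c : LaurentSeries Q̄) = algebraMap Q̄ (LaurentSeries Q̄) c := by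
        rw [algebraMap_laurentSeries_eq_single]; rfl
      rw [this]
      exact he
    exact HasGaussForm.const_mem_of_mem (A := A) (a := U₁) (b := U₂) h₁ he' hf
  · rintro ⟨U₁, U₂, h₂, -, he⟩
    exact ⟨U₁, U₂, h₂, he⟩

end Fermat.Agent.A2.H553
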