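import Mathlib
import Fermat.Agent.A2.H553.Vinf

/-!
# A2 / K2c (helper553): `V∞` for the modular function fields `Q̄(X₀(N))`

* `gaussInput_modular` : `GaussInput A (modularFunctionFieldFull N)` for every `N` and every
  valuation subring `A ⊆ Q̄` over a prime;
* `VinfModular A hℓ hA N : ValuationSubring (modularFunctionFieldBar N)`;
* `k2_Vinf_modular` : the three K2 hypotheses for `VinfModular`, packaged.
-/

set_option autoImplicit false
set_option linter.unusedSectionVars false
set_option linter.style.haveILetI false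

noncomputable section

namespace Fermat.Agent.A2.H553

open ModularCurve HahnSeries IntermediateField AlgebraicCurve
open Fermat.Agent.S28.H86 Fermat.Agent.S18.H602 Fermat.Agent.A2.H129

local notation "Q̄" => AlgebraicClosure ℚ

/-- the `q`-expansions `j(q^d)` over `Q̄` have integer coefficients -/
theorem coeffEmb_jqd_eq (d : ℕ) [NeZero d] :
    coeffEmb Q̄ (qExpand ℚ d jq) = coeffMap (Int.castRingHom Q̄) (qExpand ℤ d (jqModC ℤ)) := by
  rw [coeffMap_qExpand, coeffMap_jqModC, coeffEmb, coeffMap_qExpand, ← jqModC_rat,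
    coeffMap_jqModC]

theorem finFrac_intSeries (A : ValuationSubring Q̄) (y : LaurentSeries ℤ) :
    FinFrac A (coeffMap (Int.castRingHom Q̄) y) := by
  haveI : FiniteDimensional ℚ (⊥ : IntermediateField ℚ Q̄) := inferInstance
  refine FinFrac.of_mem (E := ⊥) ?_
  intro n
  rw [coeffMap_coeff, eq_intCast]
  exact ⟨intCast_mem A _, intCast_mem (⊥ : IntermediateField ℚ Q̄) _⟩

/-- The hypotheses hold for the function field of `X₀(N)`, any `N`, any prime `ℓ`. -/
theorem gaussInput_modular (A : ValuationSubring Q̄) {ℓ : ℕ} (hℓ : ℓ ≠ 0)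
    (hA : A.LiesOverPrime ℓ) (N : ℕ) : GaussInput A (modularFunctionFieldFull N) where
  exists_prime := ⟨ℓ, hℓ, hA⟩
  finFrac := by
    intro z hz
    refine finFrac_coeffEmb_of_adjoin ?_ hz
    rintro _ ⟨d, hd, -, rfl⟩
    haveI := hd
    rw [coeffEmb_jqd_eq]
    exact finFrac_intSeries A _

/-- The Gauss valuation at `∞` of `Q̄(X₀(N))` over `A`. -/
def VinfModular (A : ValuationSubring Q̄) {ℓ : ℕ} (hℓ : ℓ ≠ 0) (hA : A.LiesOverPrime ℓ) (N : ℕ) :
    ValuationSubring ↥(modularFunctionFieldBar N) :=
  Vinf A (modularFunctionFieldFull N) (gaussInput_modular A hℓ hA N)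

/-- **K2c.**  The hypotheses of helper129's K2 (`GaussTwice`) for the Gauss valuation at `∞` of
`Q̄(X₀(N))` and the arithmetic action of an element of the inertia group of `A`. -/
theorem k2_Vinf_modular (A : ValuationSubring Q̄) {ℓ : ℕ} (hℓ : ℓ ≠ 0) (hA : A.LiesOverPrime ℓ)
    (N : ℕ) {σ : Q̄ ≃ₐ[ℚ] Q̄} (hσ : σ ∈ A.inertiaSubgroupIn ℚ) :
    HasConstValues (constField (modularFunctionFieldFull N)) (VinfModular A hℓ hA N) ∧
    PreservesConstValues (constField (modularFunctionFieldFull N)) (VinfModular A hℓ hA N)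
      (arithmeticRingAut (modularFunctionFieldFull N) σ) ∧
    InInertia (VinfModular A hℓ hA N) (arithmeticRingAut (modularFunctionFieldFull N) σ) ∧
    (∀ c ∈ constField (modularFunctionFieldFull N),
      arithmeticRingAut (modularFunctionFieldFull N) σ c ∈
        constField (modularFunctionFieldFull N)) :=
  ⟨hasConstValues_Vinf _,
    preservesConstValues_Vinf _ (Fermat.Agent.A2.H708.mem_decomposition_of_mem_inertiaIn A hσ),
    inInertia_Vinf _ hσ, fun _ hc => arithmeticRingAut_mem_constField σ hc⟩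

end Fermat.Agent.A2.H553
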