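import Mathlib
import Fermat.Agent.A2.H553.Modular
import Fermat.Agent.A2.H528.FrickeDistinct
import Fermat.Agent.A2.H129.GaussTwiceB

/-!
# A2 / K2 concrete (helper553): the two Gauss valuations `V∞`, `V₀` of `Q̄(X₀(N))`

`A` a valuation subring of `Q̄` over a prime `ℓ`, `σ` in the inertia group of `A`,
`τ = arithmeticRingAut σ` (action on the coefficients of `q`-expansions).

* abstract part (`comapAut`): transport of helper129's K2 hypotheses along an automorphism `φ`
  of `F` which fixes the constants and commutes with `τ`;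
* `VzeroModular A hℓ hA N := H528.comapW N (VinfModular A hℓ hA N)`  (`V₀ = V∞ ∘ w_N`);
* `k2_Vzero_modular` : `HasConstValues`, `PreservesConstValues`, `InInertia` for `V₀`;
* `k2_both'`, `k2_both` : for every `f ≠ 0`, `(τ' - 1)(τ - 1) f ∈ 1 + 𝔪` at `V∞` AND at `V₀`
  (no constant needed);
* `isUnitOf_once_both` : `(τ - 1) f` is a unit at `V∞` and `V₀`;
* `VzeroModular_ne` : `V₀ ≠ V∞` when `ℓ ∣ N`;
* `algebraMap_mem_Vzero_iff` : `V₀ ∩ Q̄ = A`.
-/

set_option autoImplicit false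
set_option linter.unusedSectionVars false
set_option linter.style.haveILetI false

noncomputable section

namespace Fermat.Agent.A2.H553

open ModularCurve HahnSeries IntermediateField AlgebraicCurve
open Fermat.Agent.S28.H86 Fermat.Agent.S18.H602 Fermat.Agent.A2.H129

local notation "Q̄" => AlgebraicClosure ℚ

/-! ### Abstract transport along an automorphism -/

section Abstract

variable {F : Type*} [Field F]

/-- pull back of a valuation subring along a ring automorphism -/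
def comapAut (V : ValuationSubring F) (φ : F ≃+* F) : ValuationSubring F :=
  V.comap φ.toRingHom

theorem mem_comapAut {V : ValuationSubring F} {φ : F ≃+* F} {x : F} :
    x ∈ comapAut V φ ↔ φ x ∈ V := Iff.rfl

theorem valuation_comapAut_le_one_iff (V : ValuationSubring F) (φ : F ≃+* F) {x : F} :
    (comapAut V φ).valuation x ≤ 1 ↔ V.valuation (φ x) ≤ 1 := by
  rw [ValuationSubring.valuation_le_one_iff, ValuationSubring.valuation_le_one_iff, mem_comapAut]

theorem valuation_comapAut_eq_one_iff (V : ValuationSubring F) (φ : F ≃+* F) {x : F} :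
    (comapAut V φ).valuation x = 1 ↔ V.valuation (φ x) = 1 := by
  rcases eq_or_ne x 0 with rfl | hx
  · simp
  · have hφx : φ x ≠ 0 := (map_ne_zero_iff φ φ.injective).mpr hx
    rw [valuation_eq_one_iff_mem _ hx, valuation_eq_one_iff_mem _ hφx, mem_comapAut,
      mem_comapAut, map_inv₀]

theorem valuation_comapAut_lt_one_iff (V : ValuationSubring F) (φ : F ≃+* F) {x : F} :
    (comapAut V φ).valuation x < 1 ↔ V.valuation (φ x) < 1 := by
  rw [lt_iff_le_and_ne, lt_iff_le_and_ne, valuation_comapAut_le_one_iff, Ne, Ne,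
    valuation_comapAut_eq_one_iff]

theorem hasConstValues_comapAut {Kc : Subfield F} {V : ValuationSubring F} (φ : F ≃+* F)
    (hφK : ∀ c ∈ Kc, φ c = c) (h : HasConstValues Kc V) :
    HasConstValues Kc (comapAut V φ) := by
  intro f hf
  have hφf : φ f ≠ 0 := (map_ne_zero_iff φ φ.injective).mpr hf
  obtain ⟨c, hc, hc0, hu⟩ := h (φ f) hφf
  refine ⟨c, hc, hc0, ?_⟩
  show (comapAut V φ).valuation (f * c⁻¹) = 1
  rw [valuation_comapAut_eq_one_iff, map_mul, map_inv₀, hφK c hc]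
  exact hu

theorem preservesConstValues_comapAut {Kc : Subfield F} {V : ValuationSubring F} (φ : F ≃+* F)
    {τ : F ≃+* F} (hφK : ∀ c ∈ Kc, φ c = c) (hτK : ∀ c ∈ Kc, τ c ∈ Kc)
    (h : PreservesConstValues Kc V τ) :
    PreservesConstValues Kc (comapAut V φ) τ := by
  intro c hc hc0
  show (comapAut V φ).valuation (τ c * c⁻¹) = 1
  rw [valuation_comapAut_eq_one_iff, map_mul, map_inv₀, hφK c hc, hφK (τ c) (hτK c hc)]
  exact h c hc hc0

theorem inInertia_comapAut {V : ValuationSubring F} (φ : F ≃+* F) {τ : F ≃+* F}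
    (hcomm : ∀ x, φ (τ x) = τ (φ x)) (h : InInertia V τ) :
    InInertia (comapAut V φ) τ := by
  intro u hu
  rw [valuation_comapAut_le_one_iff] at hu
  rw [valuation_comapAut_lt_one_iff, map_sub, hcomm]
  exact h (φ u) hu

end Abstract

/-! ### The valuation `V₀ = V∞ ∘ w_N` -/

section Concrete

open Fermat.Agent.A2.H528 Fermat.Agent.S24

variable (A : ValuationSubring Q̄) {ℓ : ℕ} (hℓ : ℓ ≠ 0) (hA : A.LiesOverPrime ℓ)
  (N : ℕ) [NeZero N]

/-- The Gauss valuation at the cusp `0` of `Q̄(X₀(N))` over `A`: `V₀ = V∞ ∘ w_N`. -/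
def VzeroModular : ValuationSubring ↥(modularFunctionFieldBar N) :=
  comapW N (VinfModular A hℓ hA N)

theorem VzeroModular_eq_comapAut :
    VzeroModular A hℓ hA N = comapAut (VinfModular A hℓ hA N) (wF N).toRingEquiv := rfl

theorem mem_VzeroModular {f : ↥(modularFunctionFieldBar N)} :
    f ∈ VzeroModular A hℓ hA N ↔ wF N f ∈ VinfModular A hℓ hA N := Iff.rfl

theorem wF_const {c : ↥(modularFunctionFieldBar N)}
    (hc : c ∈ constField (modularFunctionFieldFull N)) : wF N c = c := by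
  obtain ⟨c₀, rfl⟩ := hc
  exact wFHom_algebraMap N c₀

/-- `V₀ ∩ Q̄ = A`. -/
theorem algebraMap_mem_Vzero_iff {c : Q̄} :
    algebraMap Q̄ ↥(modularFunctionFieldBar N) c ∈ VzeroModular A hℓ hA N ↔ c ∈ A := by
  rw [VzeroModular, algebraMap_mem_comapW]
  exact algebraMap_mem_Vinf_iff _

/-- **K2 hypotheses for `V₀`.** -/
theorem k2_Vzero_modular {σ : Q̄ ≃ₐ[ℚ] Q̄} (hσ : σ ∈ A.inertiaSubgroupIn ℚ) :
    HasConstValues (constField (modularFunctionFieldFull N)) (VzeroModular A hℓ hA N) ∧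
    PreservesConstValues (constField (modularFunctionFieldFull N)) (VzeroModular A hℓ hA N)
      (arithmeticRingAut (modularFunctionFieldFull N) σ) ∧
    InInertia (VzeroModular A hℓ hA N) (arithmeticRingAut (modularFunctionFieldFull N) σ) := by
  obtain ⟨h1, h2, h3, h4⟩ := k2_Vinf_modular A hℓ hA N hσ
  rw [VzeroModular_eq_comapAut]
  refine ⟨hasConstValues_comapAut _ (fun c hc => wF_const N hc) h1,
    preservesConstValues_comapAut _ (fun c hc => wF_const N hc) h4 h2,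
    inInertia_comapAut _ (fun x => ?_) h3⟩
  exact wF_gal N σ x

/-- **K2, concrete, two automorphisms.**  For `σ, σ'` in the inertia group of `A` and every
`f ≠ 0` of `Q̄(X₀(N))`: `(τ' - 1)(τ - 1) f ∈ 1 + 𝔪` at `V∞` and at `V₀`. -/
theorem k2_both' {σ σ' : Q̄ ≃ₐ[ℚ] Q̄} (hσ : σ ∈ A.inertiaSubgroupIn ℚ)
    (hσ' : σ' ∈ A.inertiaSubgroupIn ℚ) {f : ↥(modularFunctionFieldBar N)} (hf : f ≠ 0) :
    OneAddNonunits (VinfModular A hℓ hA N)
      (tauSubOne (arithmeticRingAut (modularFunctionFieldFull N) σ')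
        (tauSubOne (arithmeticRingAut (modularFunctionFieldFull N) σ) f)) ∧
    OneAddNonunits (VzeroModular A hℓ hA N)
      (tauSubOne (arithmeticRingAut (modularFunctionFieldFull N) σ')
        (tauSubOne (arithmeticRingAut (modularFunctionFieldFull N) σ) f)) := by
  obtain ⟨h1, h2, h3, -⟩ := k2_Vinf_modular A hℓ hA N hσ
  obtain ⟨-, -, h3', -⟩ := k2_Vinf_modular A hℓ hA N hσ'
  obtain ⟨g1, g2, g3⟩ := k2_Vzero_modular A hℓ hA N hσ
  obtain ⟨-, -, g3'⟩ := k2_Vzero_modular A hℓ hA N hσ'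
  exact ⟨oneAddNonunits_twice' h1 h3 h2 h3' hf, oneAddNonunits_twice' g1 g3 g2 g3' hf⟩

/-- **K2, concrete.**  `(τ - 1)² f ∈ 1 + 𝔪` at `V∞` and at `V₀`, for every `f ≠ 0`. -/
theorem k2_both {σ : Q̄ ≃ₐ[ℚ] Q̄} (hσ : σ ∈ A.inertiaSubgroupIn ℚ)
    {f : ↥(modularFunctionFieldBar N)} (hf : f ≠ 0) :
    OneAddNonunits (VinfModular A hℓ hA N)
      (tauSubOne (arithmeticRingAut (modularFunctionFieldFull N) σ)
        (tauSubOne (arithmeticRingAut (modularFunctionFieldFull N) σ) f)) ∧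
    OneAddNonunits (VzeroModular A hℓ hA N)
      (tauSubOne (arithmeticRingAut (modularFunctionFieldFull N) σ)
        (tauSubOne (arithmeticRingAut (modularFunctionFieldFull N) σ) f)) :=
  k2_both' A hℓ hA N hσ hσ hf

/-- `(τ - 1) f` is a unit at `V∞` and at `V₀`, for every `f ≠ 0`. -/
theorem isUnitOf_once_both {σ : Q̄ ≃ₐ[ℚ] Q̄} (hσ : σ ∈ A.inertiaSubgroupIn ℚ)
    {f : ↥(modularFunctionFieldBar N)} (hf : f ≠ 0) :
    IsUnitOf (VinfModular A hℓ hA N)
      (tauSubOne (arithmeticRingAut (modularFunctionFieldFull N) σ) f) ∧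
    IsUnitOf (VzeroModular A hℓ hA N)
      (tauSubOne (arithmeticRingAut (modularFunctionFieldFull N) σ) f) := by
  obtain ⟨h1, h2, h3, -⟩ := k2_Vinf_modular A hℓ hA N hσ
  obtain ⟨g1, g2, g3⟩ := k2_Vzero_modular A hℓ hA N hσ
  exact ⟨isUnitOf_once h1 h3 h2 hf, isUnitOf_once g1 g3 g2 hf⟩

/-! ### Integral `q`-expansions and `V₀ ≠ V∞` -/

/-- an integral series, as a series over `A` -/
theorem intEmb_eq_inclL (g : LaurentSeries ℤ) :
    intEmb g = inclL A.toSubring (coeffMap (Int.castRingHom ↥A.toSubring) g) := by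
  ext n
  rw [inclL_coeff, coeffMap_coeff, intEmb_coeff]
  simp

/-- functions with integral `q`-expansion lie in `V∞` -/
theorem mem_Vinf_of_intEmb {f : ↥(modularFunctionFieldBar N)} {g : LaurentSeries ℤ}
    (hfg : ((f : ↥(modularFunctionFieldBar N)) : LaurentSeries Q̄) = intEmb g) :
    f ∈ VinfModular A hℓ hA N := by
  show ((f : ↥(modularFunctionFieldBar N)) : LaurentSeries Q̄) ∈ gaussA A
  rw [hfg, intEmb_eq_inclL A]
  exact inclL_mem_gaussRing (resA A) _

/-- functions with integral `q`-expansion having a coefficient `-1` are units of `V∞` -/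
theorem inv_mem_Vinf_of_intEmb {f : ↥(modularFunctionFieldBar N)} {g : LaurentSeries ℤ} {k : ℤ}
    (hfg : ((f : ↥(modularFunctionFieldBar N)) : LaurentSeries Q̄) = intEmb g)
    (hk : g.coeff k = -1) :
    f⁻¹ ∈ VinfModular A hℓ hA N := by
  show ((f⁻¹ : ↥(modularFunctionFieldBar N)) : LaurentSeries Q̄) ∈ gaussA A
  have hcoe : ((f⁻¹ : ↥(modularFunctionFieldBar N)) : LaurentSeries Q̄) =
      ((f : ↥(modularFunctionFieldBar N)) : LaurentSeries Q̄)⁻¹ := rfl
  rw [hcoe, hfg, intEmb_eq_inclL A]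
  refine inv_mem_gaussA_of_redA_ne_zero
    ⟨inclL A.toSubring (coeffMap (Int.castRingHom ↥A.toSubring) g),
      inclL_mem_gaussRing (resA A) _⟩ ?_
  rw [redA_inclL, redL_ne_zero_iff]
  refine ⟨k, ?_⟩
  rw [coeffMap_coeff, hk]
  simp

/-- **`V₀ ≠ V∞`** when `ℓ ∣ N`. -/
theorem VzeroModular_ne [Fact ℓ.Prime] (hℓN : ℓ ∣ N) :
    VzeroModular A hℓ hA N ≠ VinfModular A hℓ hA N := by
  refine comapW_ne N ℓ hℓN (VinfModular A hℓ hA N)
    (fun f g hfg => mem_Vinf_of_intEmb A hℓ hA N hfg)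
    (fun f g k hfg hk => inv_mem_Vinf_of_intEmb A hℓ hA N hfg hk) ?_
  intro hmem
  have h1 : (algebraMap Q̄ ↥(modularFunctionFieldBar N) (ℓ : Q̄))⁻¹ =
      algebraMap Q̄ ↥(modularFunctionFieldBar N) ((ℓ : Q̄)⁻¹) := (map_inv₀ _ _).symm
  rw [h1] at hmem
  have h2 : ((ℓ : Q̄)⁻¹) ∈ A := (algebraMap_mem_Vinf_iff _).mp hmem
  have h3 : (ℓ : Q̄) ∈ A.nonunits := hA
  rw [ValuationSubring.mem_nonunits_iff] at h3
  have h4 : A.valuation ((ℓ : Q̄)⁻¹) ≤ 1 := (A.valuation_le_one_iff _).mpr h2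
  rw [map_inv₀] at h4
  have hℓ0 : A.valuation (ℓ : Q̄) ≠ 0 := by
    rw [Valuation.ne_zero_iff]
    exact_mod_cast hℓ
  have h5 : 1 ≤ A.valuation (ℓ : Q̄) := (inv_le_one₀ (zero_lt_iff.mpr hℓ0)).mp h4
  exact absurd h3 (not_lt.mpr h5)

end Concrete

end Fermat.Agent.A2.H553
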